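import Mathlib

/-!
# S36 / `[FUND]` : the fundamental (in)equality for valuation subrings above a DVR

`V` a discrete valuation subring of `E`, `F / E` finite separable, `O i` pairwise distinct valuation
subrings of `F` above `V`, with lower bounds `e i` for the ramification index and `f i` for the
residue degree.  If `[F : E] ≤ ∑ e i * f i` then the `O i` are *all* the valuation subrings of `F`
above `V`, `⋂ O i` is the integral closure of `V` in `F`, and the bounds are exact.
-/

set_option autoImplicit false
set_option linter.deprecated false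
set_option linter.unusedSectionVars false

namespace Fermat.Agent.S36

open IsDedekindDomain Module

namespace Fund

variable {E F : Type*} [Field E] [Field F] [Algebra E F]

/-- elements integral over `V` lie in every valuation subring above `V`. -/
theorem mem_of_isIntegral (V : ValuationSubring E) (O : ValuationSubring F)
    (hO : O.comap (algebraMap E F) = V) {x : F} (hx : IsIntegral V x) : x ∈ O := by
  obtain ⟨p, hp, hpx⟩ := hx
  let φ : V →+* O :=
    { toFun := fun c => ⟨algebraMap E F c, by
        have : (c : E) ∈ O.comap (algebraMap E F) := by rw [hO]; exact c.2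
        exact this⟩
      map_one' := by ext; simp
      map_mul' := fun a b => by ext; simp
      map_zero' := by ext; simp
      map_add' := fun a b => by ext; simp }
  have hint : IsIntegral O x := by
    refine ⟨p.map φ, hp.map φ, ?_⟩
    rw [Polynomial.eval₂_map]
    have : (algebraMap O F).comp φ = algebraMap V F := by
      ext c; rfl
    rw [this]; exact hpx
  obtain ⟨y, hy⟩ := IsIntegrallyClosed.algebraMap_eq_of_integral hint
  rw [← hy]; exact y.2

theorem one_le_valuation_iff {K : Type*} [Field K] (A : ValuationSubring K) {x : K} (hx : x ≠ 0) :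
    (1 : A.ValueGroup) ≤ A.valuation x ↔ x⁻¹ ∈ A := by
  rw [← A.valuation_le_one_iff, map_inv₀, inv_le_one₀ (by
    exact zero_lt_iff.mpr ((A.valuation.ne_zero_iff).mpr hx))]

theorem valuation_algebraMap_lt_one_iff {V : ValuationSubring E} {O : ValuationSubring F}
    (hO : O.comap (algebraMap E F) = V) (c : E) :
    O.valuation (algebraMap E F c) < 1 ↔ V.valuation c < 1 := by
  rw [← not_le, ← not_le, not_iff_not]
  by_cases hc : c = 0
  · subst hc; simp
  rw [one_le_valuation_iff O (by simpa using hc), one_le_valuation_iff V hc, ← hO,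
    ValuationSubring.mem_comap, map_inv₀]

/-- the inclusion of the integral closure of `V` into a valuation subring above `V`. -/
def incl {V : ValuationSubring E} {O : ValuationSubring F}
    (hO : O.comap (algebraMap E F) = V) : integralClosure V F →+* O where
  toFun s := ⟨s, mem_of_isIntegral V O hO s.2⟩
  map_one' := rfl
  map_mul' _ _ := rfl
  map_zero' := rfl
  map_add' _ _ := rfl

/-- the centre of `O` on the integral closure. -/
def ctrIdeal {V : ValuationSubring E} {O : ValuationSubring F}
    (hO : O.comap (algebraMap E F) = V) : Ideal (integralClosure V F) :=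
  (IsLocalRing.maximalIdeal O).comap (incl hO)

instance {V : ValuationSubring E} {O : ValuationSubring F}
    (hO : O.comap (algebraMap E F) = V) : (ctrIdeal hO).IsPrime :=
  Ideal.comap_isPrime _ _

theorem mem_ctrIdeal {V : ValuationSubring E} {O : ValuationSubring F}
    (hO : O.comap (algebraMap E F) = V) (s : integralClosure V F) :
    s ∈ ctrIdeal hO ↔ O.valuation (s : F) < 1 := by
  rw [ctrIdeal, Ideal.mem_comap, ValuationSubring.valuation_lt_one_iff]
  rfl

variable [FiniteDimensional E F] [Algebra.IsSeparable E F]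
variable (V : ValuationSubring E) [IsDiscreteValuationRing V]

instance instDed : IsDedekindDomain (integralClosure V F) := integralClosure.isDedekindDomain V E F

instance instFrac : IsFractionRing (integralClosure V F) F :=
  integralClosure.isFractionRing_of_finite_extension E F

instance instFin : Module.Finite V (integralClosure V F) := IsIntegralClosure.finite V E F _

variable {V}

theorem ctrIdeal_ne_bot {O : ValuationSubring F} (hO : O.comap (algebraMap E F) = V) :
    ctrIdeal hO ≠ ⊥ := by
  obtain ⟨π, hπ⟩ := IsDiscreteValuationRing.exists_irreducible V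
  intro h
  have h1 : algebraMap V (integralClosure V F) π ∈ ctrIdeal hO := by
    rw [mem_ctrIdeal]
    have : ((algebraMap V (integralClosure V F) π : integralClosure V F) : F)
        = algebraMap E F (π : E) := rfl
    rw [this, valuation_algebraMap_lt_one_iff hO, ← ValuationSubring.valuation_lt_one_iff]
    exact (IsLocalRing.mem_maximalIdeal _).mpr hπ.not_isUnit
  rw [h, Ideal.mem_bot] at h1
  have h2 : (π : E) = 0 := by
    have : ((algebraMap V (integralClosure V F) π : integralClosure V F) : F) = 0 := by
      rw [h1]; rfl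
    exact (map_eq_zero (algebraMap E F)).mp this
  exact hπ.ne_zero (Subtype.ext h2)

/-- the centre of `O` as a height one prime. -/
def ctr {O : ValuationSubring F} (hO : O.comap (algebraMap E F) = V) :
    HeightOneSpectrum (integralClosure V F) :=
  ⟨ctrIdeal hO, inferInstance, ctrIdeal_ne_bot hO⟩

theorem ne_top_of_comap {O : ValuationSubring F} (hO : O.comap (algebraMap E F) = V) : O ≠ ⊤ := by
  rintro rfl
  obtain ⟨π, hπ⟩ := IsDiscreteValuationRing.exists_irreducible V
  have h1 : (π : E)⁻¹ ∈ V := by
    have h0 : ∀ x : E, x ∈ V := fun x => by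
      have : x ∈ (⊤ : ValuationSubring F).comap (algebraMap E F) := trivial
      rwa [hO] at this
    exact h0 _
  apply hπ.not_isUnit
  refine IsUnit.of_mul_eq_one ⟨_, h1⟩ ?_
  ext
  exact mul_inv_cancel₀ (fun h => hπ.ne_zero (Subtype.ext h))

/-- `O` is the valuation subring of its centre. -/
theorem valuationSubring_ctr {O : ValuationSubring F} (hO : O.comap (algebraMap E F) = V) :
    ((ctr hO).valuation F).valuationSubring = O := by
  rw [← HeightOneSpectrum.valuationSubringAtPrime_eq_valuationSubring]
  refine ValuationSubring.eq_of_le_of_ne_top _ ?_ (ne_top_of_comap hO)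
  rintro x ⟨a, s, hs, rfl⟩
  have ha : (a : F) ∈ O := mem_of_isIntegral V O hO a.2
  have hs' : ¬ O.valuation (s : F) < 1 := fun h => hs ((mem_ctrIdeal hO s).mpr h)
  have hs0 : (s : F) ≠ 0 := by
    intro h; apply hs'; rw [h]; simp
  have : (s : F)⁻¹ ∈ O := (one_le_valuation_iff O hs0).mp (not_lt.mp hs')
  exact O.mul_mem _ _ ha this

theorem isEquiv_ctr {O : ValuationSubring F} (hO : O.comap (algebraMap E F) = V) :
    O.valuation.IsEquiv ((ctr hO).valuation F) := by
  rw [Valuation.isEquiv_iff_valuationSubring, valuationSubring_ctr hO,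
    ValuationSubring.valuationSubring_valuation]

theorem ctr_inj {O O' : ValuationSubring F} (hO : O.comap (algebraMap E F) = V)
    (hO' : O'.comap (algebraMap E F) = V) (h : ctr hO = ctr hO') : O = O' := by
  rw [← valuationSubring_ctr hO, ← valuationSubring_ctr hO', h]

variable (V) in
/-- the closed point of `V`. -/
def vV : HeightOneSpectrum V :=
  ⟨IsLocalRing.maximalIdeal V, inferInstance, IsDiscreteValuationRing.not_a_field V⟩

instance liesOver_ctr {O : ValuationSubring F} (hO : O.comap (algebraMap E F) = V) :
    (ctr hO).asIdeal.LiesOver (vV V).asIdeal := by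
  constructor
  ext c
  rw [Ideal.mem_comap]
  change c ∈ IsLocalRing.maximalIdeal V ↔ algebraMap V (integralClosure V F) c ∈ ctrIdeal hO
  rw [mem_ctrIdeal, ValuationSubring.valuation_lt_one_iff]
  exact (valuation_algebraMap_lt_one_iff hO (c : E)).symm

/-- every height one prime of the integral closure lies over the closed point of `V`. -/
theorem liesOver_of_heightOne (w : HeightOneSpectrum (integralClosure V F)) :
    w.asIdeal.LiesOver (vV V).asIdeal := by
  constructor
  have := w.isMaximal
  have h1 : (w.asIdeal.comap (algebraMap V (integralClosure V F))).IsMaximal :=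
    Ideal.isMaximal_comap_of_isIntegral_of_isMaximal w.asIdeal
  exact (IsLocalRing.eq_maximalIdeal h1).symm

theorem valuation_vV {π : V} (hπ : Irreducible π) :
    (vV V).valuation E (π : E) = WithZero.exp (-1 : ℤ) := by
  have h := (vV V).valuation_of_algebraMap (K := E) π
  have h2 : (vV V).intValuation π = WithZero.exp (-1 : ℤ) :=
    HeightOneSpectrum.intValuation_singleton _ hπ.ne_zero hπ.maximalIdeal_eq
  rw [← h2, ← h]; rfl

/-- lower bound for the ramification index. -/
theorem le_ramificationIdx {O : ValuationSubring F} (hO : O.comap (algebraMap E F) = V)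
    {π : V} (hπ : Irreducible π) {e : ℕ} {ϖ : F}
    (h : O.valuation ϖ ^ e = O.valuation (algebraMap E F π)) :
    ∃ k : ℕ, (ctr hO).valuation F ϖ = WithZero.exp (-(k : ℤ)) ∧
      e * k = (vV V).asIdeal.ramificationIdx' (ctr hO).asIdeal := by
  set w := ctr hO with hw
  set e' := (vV V).asIdeal.ramificationIdx' w.asIdeal with he'
  have h1 : (vV V).valuation E (π : E) ^ e' = w.valuation F (algebraMap E F π) :=
    HeightOneSpectrum.valuation_liesOver F (vV V) w (π : E)
  rw [valuation_vV hπ] at h1
  have h2 : w.valuation F (ϖ ^ e) = w.valuation F (algebraMap E F π) := by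
    rw [← (isEquiv_ctr hO).val_eq, map_pow]; exact h
  have hπ0 : algebraMap E F (π : E) ≠ 0 := by
    rw [Ne, map_eq_zero]; exact fun h => hπ.ne_zero (Subtype.ext h)
  have hlt : O.valuation (algebraMap E F π) < 1 := by
    rw [valuation_algebraMap_lt_one_iff hO, ← ValuationSubring.valuation_lt_one_iff]
    exact (IsLocalRing.mem_maximalIdeal _).mpr hπ.not_isUnit
  have he : e ≠ 0 := by
    rintro rfl
    rw [pow_zero] at h
    exact absurd h.symm hlt.ne
  have hϖ : ϖ ≠ 0 := by
    rintro rfl
    rw [map_zero, zero_pow he] at h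
    exact (Valuation.ne_zero_iff _).mpr hπ0 h.symm
  have hϖ0 : w.valuation F ϖ ≠ 0 := (Valuation.ne_zero_iff _).mpr hϖ
  obtain ⟨n, hn⟩ : ∃ n : ℤ, w.valuation F ϖ = WithZero.exp n :=
    ⟨WithZero.log _, (WithZero.exp_log hϖ0).symm⟩
  rw [map_pow, hn, ← h1, ← WithZero.exp_nsmul, ← WithZero.exp_nsmul, WithZero.exp_inj] at h2
  simp only [nsmul_eq_mul, mul_neg, mul_one] at h2
  have he0 : (0 : ℤ) < e := by exact_mod_cast Nat.pos_of_ne_zero he
  have hn0 : n ≤ 0 := by
    by_contra hcon
    have : 0 < (e : ℤ) * n := mul_pos he0 (not_le.mp hcon)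
    have h3 : (0 : ℤ) ≤ e' := Int.natCast_nonneg _
    omega
  obtain ⟨k, rfl⟩ : ∃ k : ℕ, n = -(k : ℤ) := ⟨n.natAbs, by omega⟩
  refine ⟨k, hn, ?_⟩
  have : (e : ℤ) * k = e' := by linarith
  exact_mod_cast this

/-- elements of `O` are congruent to integral elements. -/
theorem exists_integral_sub_lt {O : ValuationSubring F} (hO : O.comap (algebraMap E F) = V)
    {y : F} (hy : y ∈ O) : ∃ s : integralClosure V F, O.valuation ((s : F) - y) < 1 := by
  have h1 : (ctr hO).valuation F y ≤ 1 := by
    rw [← (isEquiv_ctr hO).le_one_iff_le_one, ValuationSubring.valuation_le_one_iff]; exact hy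
  obtain ⟨a, ha⟩ := (ctr hO).exists_valuation_sub_lt_of_integer h1 1
  refine ⟨a, ?_⟩
  rw [(isEquiv_ctr hO).lt_one_iff_lt_one]
  simpa using ha

/-- lower bound for the residue degree. -/
theorem le_inertiaDeg {O : ValuationSubring F} (hO : O.comap (algebraMap E F) = V)
    {f : ℕ} (u : Fin f → F) (hu : ∀ j, u j ∈ O)
    (hind : ∀ c : Fin f → E, (∀ j, c j ∈ V) →
      O.valuation (∑ j, algebraMap E F (c j) * u j) < 1 → ∀ j, V.valuation (c j) < 1) :
    f ≤ (vV V).asIdeal.inertiaDeg' (ctr hO).asIdeal := by
  rw [Ideal.inertiaDeg'_algebraMap]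
  choose s hs using fun j => exists_integral_sub_lt hO (hu j)
  have hli : LinearIndependent (V ⧸ (vV V).asIdeal)
      (fun j => (Ideal.Quotient.mk (ctr hO).asIdeal (s j))) := by
    rw [Fintype.linearIndependent_iff]
    intro g hg j
    choose c hc using fun j => Ideal.Quotient.mk_surjective (g j)
    have h1 : ∑ j, algebraMap V (integralClosure V F) (c j) * s j ∈ (ctr hO).asIdeal := by
      rw [← Ideal.Quotient.eq_zero_iff_mem, map_sum, ← hg]
      refine Finset.sum_congr rfl fun j _ => ?_
      rw [map_mul, ← hc j, Algebra.smul_def]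
      rfl
    have h2 : O.valuation (∑ j, algebraMap E F (c j : E) * (s j : F)) < 1 := by
      have := (mem_ctrIdeal hO _).mp h1
      have h7 : ((∑ j, algebraMap V (integralClosure V F) (c j) * s j : integralClosure V F) : F)
          = ∑ j, algebraMap E F (c j : E) * (s j : F) := by
        rw [AddSubmonoidClass.coe_finset_sum]
        rfl
      rwa [h7] at this
    have h3 : O.valuation (∑ j, algebraMap E F (c j : E) * u j) < 1 := by
      have h4 : ∑ j, algebraMap E F (c j : E) * u j = ∑ j, algebraMap E F (c j : E) * (s j : F)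
          - ∑ j, algebraMap E F (c j : E) * ((s j : F) - u j) := by
        rw [← Finset.sum_sub_distrib]
        refine Finset.sum_congr rfl fun j _ => by ring
      rw [h4]
      refine lt_of_le_of_lt (O.valuation.map_sub _ _) (max_lt h2 ?_)
      refine O.valuation.map_sum_lt one_ne_zero fun j _ => ?_
      rw [map_mul]
      have h5 : O.valuation (algebraMap E F (c j : E)) ≤ 1 := by
        rw [ValuationSubring.valuation_le_one_iff]
        have : ((c j : V) : E) ∈ O.comap (algebraMap E F) := by rw [hO]; exact (c j).2
        exact this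
      exact lt_of_le_of_lt (mul_le_of_le_one_left' h5) (hs j)
    have h6 := hind (fun j => (c j : E)) (fun j => (c j).2) h3 j
    rw [← hc j, Ideal.Quotient.eq_zero_iff_mem]
    exact (ValuationSubring.valuation_lt_one_iff V (c j)).mpr h6
  simpa using hli.fintype_card_le_finrank

section Main

variable {ι : Type*} [Fintype ι] {O : ι → ValuationSubring F} (hinj : Function.Injective O)
  (hV : ∀ i, (O i).comap (algebraMap E F) = V) {e f : ι → ℕ} {π : V} (hπ : Irreducible π)
  (hram : ∀ i, ∃ ϖ : F, (O i).valuation ϖ ^ e i = (O i).valuation (algebraMap E F π))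
  (hres : ∀ i, ∃ u : Fin (f i) → F, (∀ j, u j ∈ O i) ∧ ∀ c : Fin (f i) → E, (∀ j, c j ∈ V) →
    (O i).valuation (∑ j, algebraMap E F (c j) * u j) < 1 → ∀ j, V.valuation (c j) < 1)
  (hsum : finrank E F ≤ ∑ i, e i * f i)

include hinj hV hπ hram hres hsum

/-- the centres of the `O i` are all the primes of the integral closure. -/
theorem exists_eq_ctr (w : HeightOneSpectrum (integralClosure V F)) : ∃ i, w = ctr (hV i) := by
  classical
  by_contra hcon
  have hmax : (vV V).asIdeal.IsMaximal := (vV V).isMaximal
  have hp0 : (vV V).asIdeal ≠ ⊥ := (vV V).ne_bot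
  have htot := Ideal.sum_ramification_inertia (integralClosure V F) E F hp0
  set T := IsDedekindDomain.primesOverFinset (vV V).asIdeal (integralClosure V F) with hT
  set img : Finset (Ideal (integralClosure V F)) :=
    Finset.univ.image (fun i => (ctr (hV i)).asIdeal) with himg
  have hmemT : ∀ w : HeightOneSpectrum (integralClosure V F), w.asIdeal ∈ T := by
    intro w
    rw [hT, IsDedekindDomain.mem_primesOverFinset_iff hp0]
    exact ⟨w.isPrime, liesOver_of_heightOne w⟩
  have hsub : img ⊆ T := by
    intro P hP
    obtain ⟨i, -, rfl⟩ := Finset.mem_image.mp hP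
    exact hmemT _
  have hw : w.asIdeal ∉ img := by
    intro hP
    obtain ⟨i, -, hi⟩ := Finset.mem_image.mp hP
    exact hcon ⟨i, (HeightOneSpectrum.ext hi).symm⟩
  have hpos : 0 < (vV V).asIdeal.ramificationIdx' w.asIdeal * (vV V).asIdeal.inertiaDeg' w.asIdeal := by
    have := liesOver_of_heightOne w
    have := w.isPrime
    refine Nat.mul_pos (Nat.pos_of_ne_zero ?_) (Nat.pos_of_ne_zero ?_)
    · exact Ideal.IsDedekindDomain.ramificationIdx'_ne_zero_of_liesOver _ hp0
    · exact Ideal.inertiaDeg'_ne_zero _ _
  have hlt := Finset.sum_lt_sum_of_subset (f := fun P => (vV V).asIdeal.ramificationIdx' P *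
    (vV V).asIdeal.inertiaDeg' P) hsub (hmemT w) hw hpos (fun _ _ _ => Nat.zero_le _)
  rw [htot] at hlt
  have hinj' : Function.Injective (fun i => (ctr (hV i)).asIdeal) := by
    intro i j hij
    exact hinj (ctr_inj (hV i) (hV j) (HeightOneSpectrum.ext hij))
  rw [himg, Finset.sum_image (fun i _ j _ h => hinj' h)] at hlt
  have hle : ∑ i, e i * f i ≤ ∑ i, (vV V).asIdeal.ramificationIdx' (ctr (hV i)).asIdeal *
      (vV V).asIdeal.inertiaDeg' (ctr (hV i)).asIdeal := by
    refine Finset.sum_le_sum fun i _ => ?_
    obtain ⟨ϖ, hϖ⟩ := hram i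
    obtain ⟨u, hu, hind⟩ := hres i
    obtain ⟨k, -, hk⟩ := le_ramificationIdx (hV i) hπ hϖ
    have hk0 : k ≠ 0 := by
      rintro rfl
      have := liesOver_ctr (hV i)
      exact Ideal.IsDedekindDomain.ramificationIdx'_ne_zero_of_liesOver (ctr (hV i)).asIdeal hp0
        (by rw [← hk, mul_zero])
    refine Nat.mul_le_mul ?_ (le_inertiaDeg (hV i) u hu hind)
    rw [← hk]
    exact Nat.le_mul_of_pos_right _ (Nat.pos_of_ne_zero hk0)
  omega

/-- **(SEMI)** `⋂ O i` is integral over `V`. -/
theorem isIntegral_of_forall_mem {y : F} (hy : ∀ i, y ∈ O i) : IsIntegral V y := by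
  have h : ∀ w : HeightOneSpectrum (integralClosure V F), w.valuation F y ≤ 1 := by
    intro w
    obtain ⟨i, rfl⟩ := exists_eq_ctr hinj hV hπ hram hres hsum w
    rw [← (isEquiv_ctr (hV i)).le_one_iff_le_one, ValuationSubring.valuation_le_one_iff]
    exact hy i
  obtain ⟨s, rfl⟩ := HeightOneSpectrum.mem_integers_of_valuation_le_one F y h
  exact s.2

/-- **(ALL)** the `O i` are all the valuation subrings above `V`. -/
theorem exists_eq_of_comap {O' : ValuationSubring F} (hO' : O'.comap (algebraMap E F) = V) :
    ∃ i, O' = O i := by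
  obtain ⟨i, hi⟩ := exists_eq_ctr hinj hV hπ hram hres hsum (ctr hO')
  exact ⟨i, ctr_inj hO' (hV i) hi⟩

end Main

end Fund

end Fermat.Agent.S36
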