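import Mathlib

/-!
# [REG2] Regularity in three lines

`B` a noetherian local domain, `a` in the maximal ideal with `B ⧸ (a)` a principal ideal ring.
Then every prime ideal not containing `a` is principal.  If moreover `a` is a prime element,
`B` is a unique factorisation domain (Kaplansky's criterion).
-/

namespace Fermat.Agent.S36

open Ideal IsLocalRing

variable {B : Type*} [CommRing B]

/-- Key step: if `P` is prime, `a ∉ P` and the image of `P` in `B ⧸ (a)` is generated by the image
of `h ∈ P`, then `P = (h) + a P`. -/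
theorem reg2_le_sup {a h : B} (P : Ideal B) [P.IsPrime] (haP : a ∉ P) (hh : h ∈ P)
    (hgen : P.map (Ideal.Quotient.mk (span {a})) =
      span {Ideal.Quotient.mk (span {a}) h}) :
    P ≤ span {h} ⊔ span {a} • P := by
  intro x hx
  have h1 : Ideal.Quotient.mk (span {a}) x ∈ span {Ideal.Quotient.mk (span {a}) h} := by
    rw [← hgen]; exact Ideal.mem_map_of_mem _ hx
  obtain ⟨y', hy'⟩ := Ideal.mem_span_singleton'.1 h1
  obtain ⟨y, rfl⟩ := Ideal.Quotient.mk_surjective y'
  have h2 : y * h - x ∈ span {a} := by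
    rw [← Ideal.Quotient.eq, map_mul]; exact hy'
  obtain ⟨z, hz⟩ := Ideal.mem_span_singleton'.1 h2
  have hzP : z ∈ P := by
    have : z * a ∈ P := by
      rw [hz]; exact P.sub_mem (P.mul_mem_left _ hh) hx
    exact (Ideal.IsPrime.mem_or_mem ‹_› this).resolve_right haP
  have hx' : x = y * h + a * (-z) := by linear_combination hz
  rw [hx']
  refine Submodule.add_mem_sup (Ideal.mem_span_singleton'.2 ⟨y, rfl⟩) ?_
  exact Submodule.smul_mem_smul (Ideal.mem_span_singleton_self a) (P.neg_mem hzP)

/-- **[REG2]**. -/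
theorem reg2_isPrincipal [IsNoetherianRing B] [IsLocalRing B] {a : B}
    (ha : a ∈ maximalIdeal B) [IsPrincipalIdealRing (B ⧸ span {a})]
    (P : Ideal B) [P.IsPrime] (haP : a ∉ P) : P.IsPrincipal := by
  obtain ⟨g, hg⟩ := (IsPrincipalIdealRing.principal
    (P.map (Ideal.Quotient.mk (span {a})))).principal
  have hgm : g ∈ P.map (Ideal.Quotient.mk (span {a})) := by
    rw [hg]; exact Submodule.mem_span_singleton_self g
  obtain ⟨h, hhP, rfl⟩ :=
    (Ideal.mem_map_iff_of_surjective _ Ideal.Quotient.mk_surjective).1 hgm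
  have hle := reg2_le_sup P haP hhP hg
  have hJ : span {a} ≤ (⊥ : Ideal B).jacobson := by
    rw [IsLocalRing.jacobson_eq_maximalIdeal ⊥ bot_ne_top]
    exact (Ideal.span_singleton_le_iff_mem _).2 ha
  have := Submodule.le_of_le_smul_of_le_jacobson_bot (IsNoetherian.noetherian P) hJ hle
  exact ⟨h, le_antisymm this ((Ideal.span_singleton_le_iff_mem _).2 hhP)⟩

/-- **[REG2]**, factoriality. -/
theorem reg2_ufm [IsDomain B] [IsNoetherianRing B] [IsLocalRing B] {a : B}
    (ha : Prime a) [IsPrincipalIdealRing (B ⧸ span {a})] :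
    UniqueFactorizationMonoid B := by
  have ham : a ∈ maximalIdeal B := by
    rw [IsLocalRing.mem_maximalIdeal, mem_nonunits_iff]; exact ha.not_isUnit
  rw [UniqueFactorizationMonoid.iff_exists_prime_mem_of_isPrime]
  intro P hP0 hP
  by_cases haP : a ∈ P
  · exact ⟨a, haP, ha⟩
  · obtain ⟨h, hh⟩ := reg2_isPrincipal ham P haP
    have hh' : P = span {h} := hh
    refine ⟨h, by rw [hh']; exact Ideal.mem_span_singleton_self h, ?_⟩
    have h0 : h ≠ 0 := by
      rintro rfl
      apply hP0; rw [hh']; simp
    rw [← Ideal.span_singleton_prime h0, ← hh']; exact hP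

end Fermat.Agent.S36
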