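import Mathlib

/-!
# S36 / commutative algebra : `[KRULL3]`

`A` an integrally closed domain (`A = R[t]`), `π` a prime element, `s` prime to `π`.  If `π ^ n * y`
and `s * y` are integral over `A` then `y` is integral over `A` (the coefficients of the minimal
polynomial of `y` lie in `A[1/π] ∩ A[1/s] = A`).
-/

set_option autoImplicit false

open Polynomial

namespace Fermat.Agent.S36

section Krull

variable {A K1 F : Type*} [CommRing A] [IsDomain A] [Field K1] [Algebra A K1]
  [IsFractionRing A K1]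

/-- `A[1/π] ∩ A[1/s] = A` -/
theorem mem_range_of_coprime (π s : A) (hπ : Prime π) (hs : ¬ π ∣ s) (x : K1) (a b : ℕ)
    (h1 : x * algebraMap A K1 π ^ a ∈ (algebraMap A K1).range)
    (h2 : x * algebraMap A K1 s ^ b ∈ (algebraMap A K1).range) :
    x ∈ (algebraMap A K1).range := by
  obtain ⟨z, hz⟩ := h1
  obtain ⟨w, hw⟩ := h2
  have hinj : Function.Injective (algebraMap A K1) := IsFractionRing.injective A K1
  have h3 : s ^ b * z = π ^ a * w := by
    apply hinj
    rw [map_mul, map_mul, map_pow, map_pow, hz, hw]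
    ring
  have h4 : π ^ a ∣ z :=
    hπ.pow_dvd_of_dvd_mul_left a (fun h => hs (hπ.dvd_of_dvd_pow h)) ⟨w, h3⟩
  obtain ⟨z', rfl⟩ := h4
  refine ⟨z', ?_⟩
  have hπ0 : algebraMap A K1 π ^ a ≠ 0 :=
    pow_ne_zero _ (by rw [Ne, map_eq_zero_iff _ hinj]; exact hπ.ne_zero)
  apply mul_right_cancel₀ hπ0
  rw [← hz, map_mul, map_pow, mul_comm]

variable [Field F] [Algebra K1 F]

/-- the minimal polynomial of `c * y` -/
theorem minpoly_mul_eq_scaleRoots (c : K1) (hc : c ≠ 0) (y : F) (hy : IsIntegral K1 y) :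
    minpoly K1 (algebraMap K1 F c * y) = (minpoly K1 y).scaleRoots c := by
  symm
  refine minpoly.unique K1 _ ((monic_scaleRoots_iff c).2 (minpoly.monic hy)) ?_ ?_
  · have := scaleRoots_aeval_eq_zero (p := minpoly K1 y) (a := y) (r := c) (minpoly.aeval K1 y)
    exact this
  · intro q hq hq0
    rw [degree_scaleRoots]
    have h1 : aeval y (q.scaleRoots c⁻¹) = 0 := by
      have := scaleRoots_aeval_eq_zero (p := q) (a := algebraMap K1 F c * y) (r := c⁻¹) hq0
      rwa [← mul_assoc, ← map_mul, inv_mul_cancel₀ hc, map_one, one_mul] at this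
    have h2 := minpoly.min K1 y ((monic_scaleRoots_iff c⁻¹).2 hq) h1
    rwa [degree_scaleRoots] at h2

variable [IsIntegrallyClosed A] [Algebra A F] [IsScalarTower A K1 F]

variable (K1) in
include K1 in
/-- **[KRULL3]** -/
theorem krull3 (π s : A) (hπ : Prime π) (hs : ¬ π ∣ s) (y : F) (n : ℕ)
    (h1 : IsIntegral A (algebraMap A F (π ^ n) * y)) (h2 : IsIntegral A (algebraMap A F s * y)) :
    IsIntegral A y := by
  have hinj : Function.Injective (algebraMap A K1) := IsFractionRing.injective A K1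
  have hs0 : s ≠ 0 := fun h => hs (h ▸ dvd_zero π)
  have hs1 : algebraMap A K1 s ≠ 0 := by rwa [Ne, map_eq_zero_iff _ hinj]
  have hπ1 : algebraMap A K1 (π ^ n) ≠ 0 := by
    rw [Ne, map_eq_zero_iff _ hinj]; exact pow_ne_zero _ hπ.ne_zero
  have hy : IsIntegral K1 y := by
    have h3 : IsIntegral K1 (algebraMap A F s * y) := h2.tower_top
    have h4 : y = algebraMap K1 F (algebraMap A K1 s)⁻¹ * (algebraMap A F s * y) := by
      rw [IsScalarTower.algebraMap_apply A K1 F, ← mul_assoc, ← map_mul, inv_mul_cancel₀ hs1,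
        map_one, one_mul]
    rw [h4]
    exact isIntegral_algebraMap.mul h3
  set p := minpoly K1 y with hp
  have key : ∀ c : A, algebraMap A K1 c ≠ 0 → IsIntegral A (algebraMap A F c * y) →
      ∀ i, p.coeff i * algebraMap A K1 c ^ (p.natDegree - i) ∈ (algebraMap A K1).range := by
    intro c hc hint i
    have e1 := minpoly.isIntegrallyClosed_eq_field_fractions' K1 hint
    rw [IsScalarTower.algebraMap_apply A K1 F, minpoly_mul_eq_scaleRoots _ hc y hy] at e1
    have e2 := congrArg (fun r => r.coeff i) e1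
    simp only [coeff_scaleRoots, coeff_map] at e2
    exact ⟨_, e2.symm⟩
  have hcoeff : ∀ i, p.coeff i ∈ (algebraMap A K1).range := by
    intro i
    have k1 := key (π ^ n) hπ1 h1 i
    have k2 := key s hs1 h2 i
    rw [map_pow, ← pow_mul] at k1
    exact mem_range_of_coprime π s hπ hs _ _ _ k1 k2
  have hlift : p ∈ lifts (algebraMap A K1) := (lifts_iff_coeff_lifts p).2 (fun i => hcoeff i)
  obtain ⟨r, hr, _, hrm⟩ := lifts_and_natDegree_eq_and_monic hlift (minpoly.monic hy)
  refine ⟨r, hrm, ?_⟩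
  have h5 : aeval y p = 0 := minpoly.aeval K1 y
  rw [← hr, aeval_def, eval₂_map, ← IsScalarTower.algebraMap_eq] at h5
  exact h5

end Krull

end Fermat.Agent.S36
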