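import Mathlib

/-!
# [LOCGEN] Semilocal generators

`B` an integrally closed domain with fraction field `F`, `m > 0`, `f ∈ F`.

* `powModule B m hm f = {u | u ^ m * f ∈ B}` is a `B`-submodule of `F`.
* `InLoc n x`, `InMax n x`, `IsUnitAt n x`: `x` lies in `B_n`, in `n B_n`, in `B_nˣ`
  (explicit fractions, no localisation type).
* `locgen`: if for every `n` in a finite set `T` of maximal ideals there is `h` with
  `h ^ m * f` a unit at `n`, then one `h` works for all `n ∈ T`.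
-/

namespace Fermat.Agent.S36

variable {B F : Type*} [CommRing B] [Field F] [Algebra B F]

/-- `x ∈ B_n`. -/
def InLoc (n : Ideal B) (x : F) : Prop :=
  ∃ b s : B, s ∉ n ∧ x * algebraMap B F s = algebraMap B F b

/-- `x ∈ n B_n`. -/
def InMax (n : Ideal B) (x : F) : Prop :=
  ∃ b s : B, b ∈ n ∧ s ∉ n ∧ x * algebraMap B F s = algebraMap B F b

/-- `x ∈ B_nˣ`. -/
def IsUnitAt (n : Ideal B) (x : F) : Prop :=
  ∃ b s : B, b ∉ n ∧ s ∉ n ∧ x * algebraMap B F s = algebraMap B F b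

theorem InMax.inLoc {n : Ideal B} {x : F} (h : InMax n x) : InLoc n x := by
  obtain ⟨b, s, -, hs, e⟩ := h; exact ⟨b, s, hs, e⟩

theorem IsUnitAt.inLoc {n : Ideal B} {x : F} (h : IsUnitAt n x) : InLoc n x := by
  obtain ⟨b, s, -, hs, e⟩ := h; exact ⟨b, s, hs, e⟩

theorem inLoc_algebraMap (n : Ideal B) [n.IsPrime] (b : B) : InLoc n (algebraMap B F b) :=
  ⟨b, 1, fun h => (Ideal.IsPrime.ne_top ‹_›) ((Ideal.eq_top_iff_one n).2 h), by simp⟩

theorem inMax_zero (n : Ideal B) [n.IsPrime] : InMax n (0 : F) :=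
  ⟨0, 1, n.zero_mem, fun h => (Ideal.IsPrime.ne_top ‹_›) ((Ideal.eq_top_iff_one n).2 h), by simp⟩

theorem isUnitAt_one (n : Ideal B) [n.IsPrime] : IsUnitAt n (1 : F) :=
  have h1 : (1 : B) ∉ n := fun h => (Ideal.IsPrime.ne_top ‹_›) ((Ideal.eq_top_iff_one n).2 h)
  ⟨1, 1, h1, h1, by simp⟩

theorem InLoc.add {n : Ideal B} [n.IsPrime] {x y : F} (hx : InLoc n x) (hy : InLoc n y) :
    InLoc n (x + y) := by
  obtain ⟨b, s, hs, e⟩ := hx
  obtain ⟨c, t, ht, e'⟩ := hy
  refine ⟨b * t + c * s, s * t, fun h => ?_, ?_⟩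
  · exact (Ideal.IsPrime.mem_or_mem ‹_› h).elim hs ht
  · simp only [map_add, map_mul]; linear_combination (algebraMap B F t) * e + (algebraMap B F s) * e'

theorem InLoc.mul {n : Ideal B} [n.IsPrime] {x y : F} (hx : InLoc n x) (hy : InLoc n y) :
    InLoc n (x * y) := by
  obtain ⟨b, s, hs, e⟩ := hx
  obtain ⟨c, t, ht, e'⟩ := hy
  refine ⟨b * c, s * t, fun h => ?_, ?_⟩
  · exact (Ideal.IsPrime.mem_or_mem ‹_› h).elim hs ht
  · simp only [map_mul]; rw [← e, ← e']; ring

theorem InMax.add {n : Ideal B} [n.IsPrime] {x y : F} (hx : InMax n x) (hy : InMax n y) :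
    InMax n (x + y) := by
  obtain ⟨b, s, hb, hs, e⟩ := hx
  obtain ⟨c, t, hc, ht, e'⟩ := hy
  refine ⟨b * t + c * s, s * t, n.add_mem (n.mul_mem_right _ hb) (n.mul_mem_right _ hc),
    fun h => ?_, ?_⟩
  · exact (Ideal.IsPrime.mem_or_mem ‹_› h).elim hs ht
  · simp only [map_add, map_mul]; linear_combination (algebraMap B F t) * e + (algebraMap B F s) * e'

theorem InMax.sum {n : Ideal B} [n.IsPrime] {ι : Type*} (s : Finset ι) (g : ι → F)
    (h : ∀ i ∈ s, InMax n (g i)) : InMax n (∑ i ∈ s, g i) := by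
  classical
  induction s using Finset.induction_on with
  | empty => simpa using inMax_zero n
  | insert a s ha ih =>
    rw [Finset.sum_insert ha]
    exact (h a (Finset.mem_insert_self _ _)).add
      (ih fun i hi => h i (Finset.mem_insert_of_mem hi))

theorem InLoc.mul_inMax {n : Ideal B} [n.IsPrime] {x y : F} (hx : InLoc n x) (hy : InMax n y) :
    InMax n (x * y) := by
  obtain ⟨b, s, hs, e⟩ := hx
  obtain ⟨c, t, hc, ht, e'⟩ := hy
  refine ⟨b * c, s * t, n.mul_mem_left _ hc, fun h => ?_, ?_⟩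
  · exact (Ideal.IsPrime.mem_or_mem ‹_› h).elim hs ht
  · simp only [map_mul]; rw [← e, ← e']; ring

theorem inMax_algebraMap {n : Ideal B} [n.IsPrime] {c : B} (hc : c ∈ n) :
    InMax n (algebraMap B F c) :=
  ⟨c, 1, hc, fun h => (Ideal.IsPrime.ne_top ‹_›) ((Ideal.eq_top_iff_one n).2 h), by simp⟩

theorem isUnitAt_algebraMap {n : Ideal B} [n.IsPrime] {c : B} (hc : c ∉ n) :
    IsUnitAt n (algebraMap B F c) :=
  ⟨c, 1, hc, fun h => (Ideal.IsPrime.ne_top ‹_›) ((Ideal.eq_top_iff_one n).2 h), by simp⟩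

theorem IsUnitAt.add_inMax {n : Ideal B} [n.IsPrime] {x y : F} (hx : IsUnitAt n x)
    (hy : InMax n y) : IsUnitAt n (x + y) := by
  obtain ⟨b, s, hb, hs, e⟩ := hx
  obtain ⟨c, t, hc, ht, e'⟩ := hy
  refine ⟨b * t + c * s, s * t, fun h => ?_, fun h => ?_, ?_⟩
  · have : b * t ∈ n := by
      have h2 := n.sub_mem h (n.mul_mem_right s hc)
      simpa using h2
    exact (Ideal.IsPrime.mem_or_mem ‹_› this).elim hb ht
  · exact (Ideal.IsPrime.mem_or_mem ‹_› h).elim hs ht
  · simp only [map_add, map_mul]; linear_combination (algebraMap B F t) * e + (algebraMap B F s) * e'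

theorem IsUnitAt.mul {n : Ideal B} [n.IsPrime] {x y : F} (hx : IsUnitAt n x)
    (hy : IsUnitAt n y) : IsUnitAt n (x * y) := by
  obtain ⟨b, s, hb, hs, e⟩ := hx
  obtain ⟨c, t, hc, ht, e'⟩ := hy
  refine ⟨b * c, s * t, fun h => ?_, fun h => ?_, ?_⟩
  · exact (Ideal.IsPrime.mem_or_mem ‹_› h).elim hb hc
  · exact (Ideal.IsPrime.mem_or_mem ‹_› h).elim hs ht
  · simp only [map_mul]; rw [← e, ← e']; ring

theorem IsUnitAt.pow {n : Ideal B} [n.IsPrime] {x : F} (hx : IsUnitAt n x) (k : ℕ) :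
    IsUnitAt n (x ^ k) := by
  induction k with
  | zero => simpa using isUnitAt_one n
  | succ k ih => rw [pow_succ]; exact ih.mul hx

section Inj

variable [FaithfulSMul B F]

theorem algebraMap_ne_zero_of_notMem {n : Ideal B} {s : B} (hs : s ∉ n) :
    algebraMap B F s ≠ 0 := by
  intro h
  have : s = 0 := (FaithfulSMul.algebraMap_injective B F) (by simpa using h)
  exact hs (this ▸ n.zero_mem)

theorem IsUnitAt.ne_zero {n : Ideal B} {x : F} (hx : IsUnitAt n x) : x ≠ 0 := by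
  obtain ⟨b, s, hb, hs, e⟩ := hx
  rintro rfl
  exact algebraMap_ne_zero_of_notMem (F := F) hb (by rw [← e]; simp)

theorem IsUnitAt.inv {n : Ideal B} {x : F} (hx : IsUnitAt n x) : IsUnitAt n x⁻¹ := by
  have hx0 := hx.ne_zero
  obtain ⟨b, s, hb, hs, e⟩ := hx
  refine ⟨s, b, hs, hb, ?_⟩
  rw [← e]; field_simp

theorem isUnitAt_iff {n : Ideal B} [n.IsPrime] {x : F} :
    IsUnitAt n x ↔ x ≠ 0 ∧ InLoc n x ∧ InLoc n x⁻¹ := by
  constructor
  · intro h; exact ⟨h.ne_zero, h.inLoc, h.inv.inLoc⟩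
  · rintro ⟨h0, ⟨b, s, hs, e⟩, ⟨c, t, ht, e'⟩⟩
    refine ⟨b, s, fun hb => ?_, hs, e⟩
    -- `b c = s t`
    have : algebraMap B F (b * c) = algebraMap B F (s * t) := by
      simp only [map_mul]; rw [← e, ← e']; field_simp
    have h2 : b * c = s * t := FaithfulSMul.algebraMap_injective B F this
    have h3 : s * t ∈ n := h2 ▸ n.mul_mem_right _ hb
    exact (Ideal.IsPrime.mem_or_mem ‹_› h3).elim hs ht

end Inj

section Normal

variable [IsDomain B] [IsFractionRing B F] [IsIntegrallyClosed B]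

omit [IsDomain B] in
/-- `B` is integrally closed: `x ^ m ∈ B` implies `x ∈ B`. -/
theorem exists_algebraMap_of_pow {m : ℕ} (hm : 0 < m) {x : F} {b : B}
    (h : x ^ m = algebraMap B F b) : ∃ c : B, algebraMap B F c = x := by
  apply IsIntegrallyClosed.algebraMap_eq_of_integral
  exact IsIntegral.of_pow hm (h ▸ isIntegral_algebraMap)

/-- `B_n` is integrally closed: `x ^ m ∈ B_n` implies `x ∈ B_n`. -/
theorem InLoc.of_pow {n : Ideal B} {m : ℕ} (hm : 0 < m) {x : F} (h : InLoc n (x ^ m)) :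
    InLoc n x := by
  obtain ⟨b, s, hs, e⟩ := h
  obtain ⟨k, rfl⟩ : ∃ k, m = k + 1 := ⟨m - 1, by omega⟩
  have h1 : (x * algebraMap B F s) ^ (k + 1) = algebraMap B F (s ^ k * b) := by
    rw [map_mul, map_pow, ← e]; ring
  obtain ⟨c, hc⟩ := exists_algebraMap_of_pow hm h1
  exact ⟨c, s, hs, hc.symm⟩

variable (B) in
/-- `M_f = {u | u ^ m f ∈ B}`, a `B`-submodule of `F` because `B` is integrally closed. -/
def powModule (m : ℕ) (hm : 0 < m) (f : F) : Submodule B F where
  carrier := {u | ∃ b : B, u ^ m * f = algebraMap B F b}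
  zero_mem' := ⟨0, by simp [hm.ne']⟩
  smul_mem' := by
    rintro c u ⟨b, hb⟩
    refine ⟨c ^ m * b, ?_⟩
    rw [Algebra.smul_def, mul_pow, mul_assoc, hb, map_mul, map_pow]
  add_mem' := by
    rintro u v ⟨b, hb⟩ ⟨c, hc⟩
    have key : ∀ i ∈ Finset.range (m + 1), ∃ d : B,
        algebraMap B F d = u ^ i * v ^ (m - i) * f := by
      intro i hi
      have hi' : i ≤ m := Nat.lt_succ_iff.1 (Finset.mem_range.1 hi)
      apply exists_algebraMap_of_pow hm (b := b ^ i * c ^ (m - i))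
      rw [map_mul, map_pow, map_pow, ← hb, ← hc]
      have : f ^ m = f ^ i * f ^ (m - i) := by rw [← pow_add]; congr 1; omega
      rw [mul_pow, mul_pow, this, mul_pow, mul_pow, ← pow_mul, ← pow_mul, ← pow_mul, ← pow_mul,
        mul_comm i m, mul_comm (m - i) m]
      ring
    choose! d hd using key
    refine ⟨∑ i ∈ Finset.range (m + 1), d i * (m.choose i : B), ?_⟩
    rw [add_pow, Finset.sum_mul, map_sum]
    refine Finset.sum_congr rfl fun i hi => ?_
    rw [map_mul, hd i hi, map_natCast]; ring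

theorem mem_powModule {m : ℕ} {hm : 0 < m} {f u : F} :
    u ∈ powModule B m hm f ↔ ∃ b : B, u ^ m * f = algebraMap B F b := Iff.rfl

/-- Localisation commutes with `powModule`. -/
theorem exists_smul_mem_powModule {n : Ideal B} {m : ℕ} (hm : 0 < m) {f u : F}
    (h : InLoc n (u ^ m * f)) : ∃ s : B, s ∉ n ∧ algebraMap B F s * u ∈ powModule B m hm f := by
  obtain ⟨b, s, hs, e⟩ := h
  obtain ⟨k, rfl⟩ : ∃ k, m = k + 1 := ⟨m - 1, by omega⟩
  refine ⟨s, hs, s ^ k * b, ?_⟩
  rw [map_mul, map_pow, ← e]; ring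

/-- **[LOCGEN]**. -/
theorem locgen {m : ℕ} (hm : 0 < m) (f : F) (T : Finset (Ideal B))
    (hT : ∀ n ∈ T, n.IsMaximal)
    (hloc : ∀ n ∈ T, ∃ h : F, IsUnitAt n (h ^ m * f)) :
    ∃ h : F, h ∈ powModule B m hm f ∧ ∀ n ∈ T, IsUnitAt n (h ^ m * f) := by
  classical
  -- local generators lying in the global module
  have h1 : ∀ n ∈ T, ∃ h : F, h ∈ powModule B m hm f ∧ IsUnitAt n (h ^ m * f) := by
    intro n hn
    have := (hT n hn).isPrime
    obtain ⟨h, hh⟩ := hloc n hn
    obtain ⟨s, hs, hsm⟩ := exists_smul_mem_powModule hm hh.inLoc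
    refine ⟨_, hsm, ?_⟩
    have : (algebraMap B F s * h) ^ m * f = (algebraMap B F s) ^ m * (h ^ m * f) := by ring
    rw [this]
    exact ((isUnitAt_algebraMap hs).pow m).mul hh
  choose! g hgM hgU using h1
  -- separating elements
  have h2 : ∀ n ∈ T, ∃ c : B, c ∉ n ∧ ∀ n' ∈ T, n' ≠ n → c ∈ n' := by
    intro n hn
    have := (hT n hn).isPrime
    have hnot : ¬ ((T.erase n).inf id ≤ n) := by
      rw [Ideal.IsPrime.inf_le' ‹_›]
      rintro ⟨n', hn', hle⟩
      obtain ⟨hne, hn'T⟩ := Finset.mem_erase.1 hn'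
      exact hne ((hT n' hn'T).eq_of_le (hT n hn).ne_top hle)
    obtain ⟨c, hc, hcn⟩ := SetLike.not_le_iff_exists.1 hnot
    refine ⟨c, hcn, fun n' hn' hne => ?_⟩
    have := (Finset.inf_le (f := id) (Finset.mem_erase.2 ⟨hne, hn'⟩)) hc
    exact this
  choose! c hc hc' using h2
  refine ⟨∑ n ∈ T, algebraMap B F (c n) * g n, ?_, fun n hn => ?_⟩
  · refine Submodule.sum_mem _ fun n hn => ?_
    rw [← Algebra.smul_def]
    exact Submodule.smul_mem _ _ (hgM n hn)
  · have := (hT n hn).isPrime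
    have hU := hgU n hn
    have hg0 : g n ≠ 0 := by
      intro h0
      apply hU.ne_zero
      rw [h0]; simp [hm.ne']
    -- `g n' / g n ∈ B_n`
    have hq : ∀ n' ∈ T, InLoc n (g n' / g n) := by
      intro n' hn'
      apply InLoc.of_pow hm
      obtain ⟨b, hb⟩ := hgM n' hn'
      have hf0 : f ≠ 0 := by
        intro h0; apply hU.ne_zero; rw [h0]; simp
      have : (g n' / g n) ^ m = algebraMap B F b * (g n ^ m * f)⁻¹ := by
        rw [← hb, div_pow]; field_simp
      rw [this]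
      exact (inLoc_algebraMap n b).mul hU.inv.inLoc
    have hsum : (∑ n' ∈ T, algebraMap B F (c n') * g n') =
        (algebraMap B F (c n) + ∑ n' ∈ T.erase n, algebraMap B F (c n') * (g n' / g n)) * g n := by
      rw [add_mul, Finset.sum_mul, ← Finset.add_sum_erase T _ hn]
      congr 1
      refine Finset.sum_congr rfl fun n' _ => ?_
      field_simp
    rw [hsum, mul_pow, mul_assoc]
    refine IsUnitAt.mul (IsUnitAt.pow ?_ m) hU
    refine (isUnitAt_algebraMap (hc n hn)).add_inMax (InMax.sum _ _ fun n' hn' => ?_)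
    obtain ⟨hne, hn'T⟩ := Finset.mem_erase.1 hn'
    rw [mul_comm]
    exact (hq n' hn'T).mul_inMax (inMax_algebraMap (hc' n' hn'T n hn hne.symm))

end Normal

end Fermat.Agent.S36
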